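import Mathlib
import Fermat.Prelude.Def_FLTPrelim_FreyPackage

set_option autoImplicit false

/-!
Top wiring, part 1: S01 from S02 and S03 (both as hypotheses, so that this file is sorry-free).
-/

namespace Fermat.Agent.Wiring

/-- The type of S02. -/
abbrev Stmt02 : Prop :=
  ∀ (a b c : ℤ), a ≠ 0 → b ≠ 0 → c ≠ 0 → ∀ (p : ℕ), p.Prime → 5 ≤ p →
    a ^ p + b ^ p = c ^ p → Nonempty FreyPackage

/-- The type of S03. -/
abbrev Stmt03 : Prop := ∀ _ : FreyPackage, False

/-- S01 from S02 and S03. -/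
theorem stmt01_of (h02 : Stmt02) (h03 : Stmt03) :
    ∀ (n : ℕ), 3 ≤ n → ∀ (a b c : ℕ), 0 < a → 0 < b → 0 < c → a ^ n + b ^ n ≠ c ^ n := by
  have hflt : FermatLastTheorem := by
    refine FermatLastTheorem.of_odd_primes ?_
    intro p hp hodd
    by_cases h3 : p = 3
    · subst h3
      exact fermatLastTheoremThree
    · have hp5 : 5 ≤ p := by
        have h2 := hp.two_le
        rcases hodd with ⟨k, hk⟩
        omega
      rw [fermatLastTheoremFor_iff_int]
      intro a b c ha hb hc H
      obtain ⟨P⟩ := h02 a b c ha hb hc p hp hp5 H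
      exact h03 P
  intro n hn a b c ha hb hc
  exact hflt n hn a b c ha.ne' hb.ne' hc.ne'

end Fermat.Agent.Wiring
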